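import Mathlib

/-!
# S27 / (G): the matrix lemma

For an integer matrix `M` with `ℓ ∤ det M` there is `e > 0` with
`v_ℓ det (1 - M ^ (m ℓ^s)) = v_ℓ det (1 - M ^ m) + d s` for all `m` divisible by `e`
(`s27gw_mat_growth`).  Pure Mathlib.  Prefix `s27gw_`.
-/

set_option autoImplicit false
set_option linter.unusedSectionVars false
set_option linter.style.haveILetI false

namespace Fermat.Agent.S27

open Finset Matrix

section mat

variable (ℓ : ℕ) [hℓ : Fact ℓ.Prime] {d : ℕ}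

/-- a power of `M` is `1` modulo `ℓ²`. -/
theorem s27gw_mat_exists_pow (M : Matrix (Fin d) (Fin d) ℤ) (hM : ¬ (ℓ : ℤ) ∣ M.det) :
    ∃ e : ℕ, 0 < e ∧ ∃ C : Matrix (Fin d) (Fin d) ℤ, M ^ e = 1 + ((ℓ : ℤ) ^ 2) • C := by
  classical
  haveI : NeZero (ℓ ^ 2) := ⟨pow_ne_zero _ hℓ.out.ne_zero⟩
  let ρ : Matrix (Fin d) (Fin d) ℤ →+* Matrix (Fin d) (Fin d) (ZMod (ℓ ^ 2)) := (Int.castRingHom (ZMod (ℓ ^ 2))).mapMatrix
  have hdet : IsUnit (ρ M).det := by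
    have h1 : (ρ M).det = ((M.det : ℤ) : ZMod (ℓ ^ 2)) := by
      show ((Int.castRingHom (ZMod (ℓ ^ 2))).mapMatrix M).det = _
      rw [← RingHom.map_det]
      rfl
    rw [h1]
    have hcop : IsCoprime (M.det) ((ℓ : ℤ) ^ 2) := by
      apply IsCoprime.pow_right
      exact ((Prime.coprime_iff_not_dvd (Nat.prime_iff_prime_int.mp hℓ.out)).2 hM).symm
    obtain ⟨a, b, hab⟩ := hcop
    have h2 : ((a : ZMod (ℓ ^ 2))) * ((M.det : ℤ) : ZMod (ℓ ^ 2)) = 1 := by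
      have := congrArg (fun z : ℤ => (z : ZMod (ℓ ^ 2))) hab
      simp only [Int.cast_add, Int.cast_mul, Int.cast_pow, Int.cast_natCast, Int.cast_one] at this
      have h0 : ((ℓ : ZMod (ℓ ^ 2))) ^ 2 = 0 := by
        have : ((ℓ ^ 2 : ℕ) : ZMod (ℓ ^ 2)) = 0 := ZMod.natCast_self _
        rwa [Nat.cast_pow] at this
      rw [h0, mul_zero, add_zero] at this
      exact this
    exact IsUnit.of_mul_eq_one _ (by rw [mul_comm]; exact h2)
  have hu : IsUnit (ρ M) := (Matrix.isUnit_iff_isUnit_det _).2 hdet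
  obtain ⟨u, hu'⟩ := hu
  have hfin : IsOfFinOrder u := isOfFinOrder_of_finite u
  refine ⟨orderOf u, hfin.orderOf_pos, ?_⟩
  have h1 : (ρ M) ^ orderOf u = 1 := by
    rw [← hu', ← Units.val_pow_eq_pow_val, pow_orderOf_eq_one, Units.val_one]
  have h2 : ρ (M ^ orderOf u - 1) = 0 := by rw [map_sub, map_pow, h1, map_one, sub_self]
  have h3 : ∀ i j, ((ℓ : ℤ) ^ 2) ∣ (M ^ orderOf u - 1) i j := by
    intro i j
    have := congrFun (congrFun h2 i) j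
    have h4 : ((((M ^ orderOf u - 1) i j : ℤ)) : ZMod (ℓ ^ 2)) = 0 := this
    rw [ZMod.intCast_zmod_eq_zero_iff_dvd] at h4
    simpa using h4
  choose C hC using h3
  refine ⟨Matrix.of C, ?_⟩
  ext i j
  have := hC i j
  simp only [Matrix.add_apply, Matrix.smul_apply, Matrix.of_apply, smul_eq_mul]
  rw [← this]
  simp

theorem s27gw_mat_pow_cong (a : ℤ) (B C : Matrix (Fin d) (Fin d) ℤ) (hB : B = 1 + a • C) (i : ℕ) :
    ∃ Ci : Matrix (Fin d) (Fin d) ℤ, B ^ i = 1 + a • Ci := by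
  induction i with
  | zero => exact ⟨0, by simp⟩
  | succ i ih =>
    obtain ⟨Ci, hCi⟩ := ih
    refine ⟨Ci + C + a • (Ci * C), ?_⟩
    rw [pow_succ, hCi, hB]
    simp only [mul_add, add_mul, one_mul, mul_one, smul_add, smul_mul_assoc, mul_smul_comm, smul_smul]
    abel

/-- `det (1 + ℓ C)` is prime to `ℓ`. -/
theorem s27gw_det_one_add (C : Matrix (Fin d) (Fin d) ℤ) :
    ¬ (ℓ : ℤ) ∣ (1 + (ℓ : ℤ) • C).det := by
  intro h
  have h1 : (((1 + (ℓ : ℤ) • C).det : ℤ) : ZMod ℓ) = 0 := by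
    rw [ZMod.intCast_zmod_eq_zero_iff_dvd]
    exact h
  have h2 : (((1 + (ℓ : ℤ) • C).det : ℤ) : ZMod ℓ) =
      ((Int.castRingHom (ZMod ℓ)).mapMatrix (1 + (ℓ : ℤ) • C)).det := by
    rw [← RingHom.map_det]
    rfl
  have h3 : (Int.castRingHom (ZMod ℓ)).mapMatrix (1 + (ℓ : ℤ) • C) = 1 := by
    rw [map_add, map_one]
    have : (Int.castRingHom (ZMod ℓ)).mapMatrix ((ℓ : ℤ) • C) = 0 := by
      ext i j
      simp only [RingHom.mapMatrix_apply, Matrix.map_apply, Matrix.smul_apply, smul_eq_mul,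
        Int.coe_castRingHom, Int.cast_mul, Int.cast_natCast, ZMod.natCast_self, zero_mul,
        Matrix.zero_apply]
    rw [this, add_zero]
  rw [h2, h3, Matrix.det_one] at h1
  exact one_ne_zero h1

theorem s27gw_mat_step (B C : Matrix (Fin d) (Fin d) ℤ) (hB : B = 1 + ((ℓ : ℤ) ^ 2) • C) :
    ∃ u : ℤ, ¬ (ℓ : ℤ) ∣ u ∧ (1 - B ^ ℓ).det = (1 - B).det * ((ℓ : ℤ) ^ d * u) := by
  choose Ci hCi using s27gw_mat_pow_cong ((ℓ : ℤ) ^ 2) B C hB
  have hS : ∑ i ∈ range ℓ, B ^ i = (ℓ : ℤ) • (1 + (ℓ : ℤ) • ∑ i ∈ range ℓ, Ci i) := by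
    rw [Finset.sum_congr rfl (fun i _ => hCi i), Finset.sum_add_distrib, Finset.sum_const,
      Finset.card_range, ← Finset.smul_sum, smul_add, smul_smul, ← pow_two, natCast_zsmul]
  refine ⟨(1 + (ℓ : ℤ) • ∑ i ∈ range ℓ, Ci i).det, s27gw_det_one_add ℓ _, ?_⟩
  rw [← mul_neg_geom_sum, Matrix.det_mul, hS, Matrix.det_smul, Fintype.card_fin]

/-- **The matrix lemma**: `v_ℓ det (1 - M ^ (m ℓ^s)) = v_ℓ det (1 - M ^ m) + d s` for `e ∣ m`. -/
theorem s27gw_mat_growth (M : Matrix (Fin d) (Fin d) ℤ) (hM : ¬ (ℓ : ℤ) ∣ M.det)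
    (hne : ∀ n, 0 < n → (1 - M ^ n).det ≠ 0) :
    ∃ e : ℕ, 0 < e ∧ ∀ m, e ∣ m → 0 < m → ∀ s : ℕ,
      padicValNat ℓ ((1 - M ^ (m * ℓ ^ s)).det.natAbs) =
        padicValNat ℓ ((1 - M ^ m).det.natAbs) + d * s := by
  obtain ⟨e, he, C, hC⟩ := s27gw_mat_exists_pow ℓ M hM
  refine ⟨e, he, ?_⟩
  rintro m ⟨q, rfl⟩ hm s
  induction s with
  | zero => simp
  | succ s ih =>
    obtain ⟨C', hC'⟩ := s27gw_mat_pow_cong ((ℓ : ℤ) ^ 2) (M ^ e) C hC (q * ℓ ^ s)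
    rw [← pow_mul, ← mul_assoc] at hC'
    obtain ⟨u, hu, hdet⟩ := s27gw_mat_step ℓ (M ^ (e * q * ℓ ^ s)) C' hC'
    rw [← pow_mul, mul_assoc (e * q), ← pow_succ] at hdet
    have hpos : 0 < e * q * ℓ ^ s := Nat.mul_pos hm (pow_pos hℓ.out.pos _)
    have h1 : (1 - M ^ (e * q * ℓ ^ s)).det ≠ 0 := hne _ hpos
    have hu0 : u ≠ 0 := fun h => hu (by rw [h]; exact dvd_zero _)
    rw [hdet, Int.natAbs_mul, Int.natAbs_mul, Int.natAbs_pow, Int.natAbs_natCast]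
    rw [padicValNat.mul (Int.natAbs_ne_zero.2 h1)
      (Nat.mul_ne_zero (pow_ne_zero _ hℓ.out.ne_zero) (Int.natAbs_ne_zero.2 hu0)),
      padicValNat.mul (pow_ne_zero _ hℓ.out.ne_zero) (Int.natAbs_ne_zero.2 hu0),
      padicValNat.prime_pow, ih]
    have : padicValNat ℓ u.natAbs = 0 := by
      apply padicValNat.eq_zero_of_not_dvd
      intro h
      exact hu (Int.natCast_dvd.2 h)
    rw [this]
    ring

end mat

end Fermat.Agent.S27
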