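import Mathlib

/-!
# S27 / (G): growth of fixed points => structure.  Part 1: generic lemmas

Pure Mathlib.  Prefix `s27gw_`.
-/

set_option autoImplicit false
set_option linter.unusedSectionVars false
set_option linter.style.haveILetI false

namespace Fermat.Agent.S27

open Finset


section index
variable {G : Type*} [AddCommGroup G]

/-- an element killed by a prime `ℓ` and with a multiple `k • x` (`ℓ ∤ k`) in a subgroup lies in the subgroup. -/
theorem s27gw_mem_of_zsmul_mem (ℓ : ℕ) [hℓ : Fact ℓ.Prime] (U : AddSubgroup G) (x : G) (hx : ℓ • x = 0)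
    (k : ℤ) (hk : ¬ (ℓ : ℤ) ∣ k) (hkx : k • x ∈ U) : x ∈ U := by
  have hp : Prime (ℓ : ℤ) := Nat.prime_iff_prime_int.mp hℓ.out
  have hcop : IsCoprime (ℓ : ℤ) k := (Prime.coprime_iff_not_dvd hp).2 hk
  obtain ⟨a, b, hab⟩ := hcop
  have h1 : x = (a * ℓ + b * k) • x := by rw [hab, one_smul]
  rw [add_smul, mul_smul, mul_smul, natCast_zsmul, hx, smul_zero, zero_add] at h1
  rw [h1]
  exact U.zsmul_mem hkx b

/-- a proper inclusion of finite subgroups of exponent `ℓ` multiplies the order by at least `ℓ`. -/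
theorem s27gw_card_lt_of_lt (ℓ : ℕ) [hℓ : Fact ℓ.Prime] (U U' : AddSubgroup G) (hle : U ≤ U') (hne : U ≠ U')
    (hfin : Finite U') (hexp : ∀ x ∈ U', ℓ • x = 0) : ℓ * Nat.card U ≤ Nat.card U' := by
  obtain ⟨x, hxU', hxU⟩ : ∃ x ∈ U', x ∉ U := by
    by_contra h
    apply hne
    apply le_antisymm hle
    intro y hy
    by_contra hyU
    exact h ⟨y, hy, hyU⟩
  let f : U × Fin ℓ → U' := fun p =>
    ⟨(p.1 : G) + (p.2 : ℕ) • x, U'.add_mem (hle p.1.2) (U'.nsmul_mem hxU' _)⟩
  have hf : Function.Injective f := by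
    rintro ⟨u, i⟩ ⟨u', i'⟩ h
    have h0 : (u : G) + (i : ℕ) • x = (u' : G) + (i' : ℕ) • x := congrArg Subtype.val h
    have hii : i = i' := by
      by_contra hne'
      apply hxU
      apply s27gw_mem_of_zsmul_mem ℓ U x (hexp x hxU') ((i : ℤ) - (i' : ℤ))
      · intro hdvd
        have habs : |((i : ℕ) : ℤ) - ((i' : ℕ) : ℤ)| < (ℓ : ℤ) := by
          have h1 := i.2
          have h2 := i'.2
          rw [abs_lt]
          constructor <;> omega
        have := Int.eq_zero_of_abs_lt_dvd hdvd habs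
        apply hne'
        apply Fin.ext
        omega
      · have : (((i : ℕ) : ℤ) - ((i' : ℕ) : ℤ)) • x = (u' : G) - (u : G) := by
          rw [sub_smul, natCast_zsmul, natCast_zsmul]
          rw [sub_eq_sub_iff_add_eq_add]
          rw [add_comm, h0, add_comm]
        rw [this]
        exact U.sub_mem u'.2 u.2
    subst hii
    have : (u : G) = u' := add_right_cancel h0
    rw [Prod.mk.injEq]
    exact ⟨Subtype.ext this, rfl⟩
  have := Nat.card_le_card_of_injective f hf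
  rw [Nat.card_prod, Nat.card_fin, mul_comm] at this
  exact this

end index




section counting

theorem s27gw_card_of_surj {A B : Type*} [AddCommGroup A] [AddCommGroup B] (f : A →+ B)
    (hf : Function.Surjective f) : Nat.card A = Nat.card f.ker * Nat.card B := by
  rw [AddSubgroup.card_eq_card_quotient_mul_card_addSubgroup f.ker,
    Nat.card_congr (QuotientAddGroup.quotientKerEquivOfSurjective f hf).toEquiv, mul_comm]

/-- exponential beats linear -/
theorem s27gw_exists_lt_pow (ℓ : ℕ) (hℓ : 2 ≤ ℓ) (c d : ℕ) : ∃ s, c + d * s < ℓ ^ s := by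
  set t := c + 2 * d + 1 with ht
  refine ⟨2 * t, ?_⟩
  have h1 : t < 2 ^ t := Nat.lt_two_pow_self
  have h2 : (2 : ℕ) ^ (2 * t) = 2 ^ t * 2 ^ t := by rw [two_mul, pow_add]
  have h3 : (2 : ℕ) ^ (2 * t) ≤ ℓ ^ (2 * t) := Nat.pow_le_pow_left hℓ _
  have h4 : (t + 1) * (t + 1) ≤ 2 ^ t * 2 ^ t := Nat.mul_le_mul h1 h1
  have h5 : c + d * (2 * t) < (t + 1) * (t + 1) := by
    have : c ≤ t * c := Nat.le_mul_of_pos_left c (by omega)
    nlinarith
  omega

end counting

section chain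

variable {G : Type*} [AddCommGroup G] (ℓ : ℕ) [hℓ : Fact ℓ.Prime]

theorem s27gw_chain (V : ℕ → AddSubgroup G) (hmono : ∀ j, V j ≤ V (j + 1))
    (hfin : ∀ j, Finite (V j)) (hexp : ∀ j, ∀ x ∈ V j, ℓ • x = 0)
    (hne : ∀ j, V j ≠ V (j + 1)) (J : ℕ) : ℓ ^ J ≤ Nat.card (V J) := by
  induction J with
  | zero =>
    haveI := hfin 0
    rw [pow_zero]
    exact Nat.card_pos
  | succ J ih =>
    have := s27gw_card_lt_of_lt ℓ (V J) (V (J + 1)) (hmono J) (hne J) (hfin _) (hexp _)
    calc ℓ ^ (J + 1) = ℓ * ℓ ^ J := by rw [pow_succ']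
      _ ≤ ℓ * Nat.card (V J) := Nat.mul_le_mul_left _ ih
      _ ≤ _ := this

theorem s27gw_stab (V : ℕ → AddSubgroup G)
    (hstab : ∀ j, V j = V (j + 1) → V (j + 1) = V (j + 2)) (j0 : ℕ) (h0 : V j0 = V (j0 + 1)) (i : ℕ) :
    V (j0 + i) = V j0 := by
  have key : ∀ i, V (j0 + i) = V (j0 + i + 1) := by
    intro i
    induction i with
    | zero => exact h0
    | succ i ih => exact hstab _ ih
  induction i with
  | zero => rfl
  | succ i ih => rw [← ih, ← add_assoc, ← key i]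

end chain




section quot

/-- for a finite abelian group, `|A / nA| = |A[n]|`. -/
theorem s27gw_card_quot_eq {A : Type*} [AddCommGroup A] [Finite A] (f : A →+ A) :
    Nat.card (A ⧸ f.range) = Nat.card f.ker := by
  have h1 := s27gw_card_of_surj f.rangeRestrict f.rangeRestrict_surjective
  have h2 := AddSubgroup.card_eq_card_quotient_mul_card_addSubgroup f.range
  rw [AddMonoidHom.ker_rangeRestrict] at h1
  have hpos : 0 < Nat.card f.range := Nat.card_pos
  rw [h1] at h2
  exact (Nat.eq_of_mul_eq_mul_right hpos h2).symm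

end quot




section quot

variable {G : Type*} [AddCommGroup G]

/-- the subgroup `ℓ G`. -/
def s27gw_L (ℓ : ℕ) : AddSubgroup G := (nsmulAddMonoidHom ℓ : G →+ G).range

theorem s27gw_mem_L {ℓ : ℕ} {x : G} : x ∈ s27gw_L (G := G) ℓ ↔ ∃ y : G, ℓ • y = x := by
  rw [s27gw_L, AddMonoidHom.mem_range]
  rfl

theorem s27gw_quot_finite (ℓ : ℕ) (A : ℕ → AddSubgroup G) (hmono : Monotone A)
    (hfin : ∀ s, Finite (A s)) (hcov : ∀ x, ∃ s, x ∈ A s) (hT : Finite {x : G // ℓ • x = 0}) :
    Finite (G ⧸ s27gw_L (G := G) ℓ) := by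
  by_contra hinf
  rw [not_finite_iff_infinite] at hinf
  set n := Nat.card {x : G // ℓ • x = 0} with hn
  let g : Fin (n + 1) → G ⧸ s27gw_L (G := G) ℓ := fun i => Infinite.natEmbedding _ (i : ℕ)
  have hg : Function.Injective g := fun i j h =>
    Fin.ext ((Infinite.natEmbedding (G ⧸ s27gw_L (G := G) ℓ)).injective h)
  let z : Fin (n + 1) → G := fun i => Quotient.out (g i)
  have hz : ∀ i, (QuotientAddGroup.mk (z i) : G ⧸ s27gw_L (G := G) ℓ) = g i := fun i =>
    QuotientAddGroup.out_eq' (g i)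
  choose si hsi using fun i => hcov (z i)
  set s := Finset.univ.sup si with hs
  have hzs : ∀ i, z i ∈ A s := fun i => hmono (Finset.le_sup (Finset.mem_univ i)) (hsi i)
  haveI := hfin s
  let f : A s →+ A s := nsmulAddMonoidHom ℓ
  let h : Fin (n + 1) → (A s) ⧸ f.range := fun i => QuotientAddGroup.mk ⟨z i, hzs i⟩
  have hh : Function.Injective h := by
    intro i j hij
    apply hg
    rw [← hz i, ← hz j]
    have h1 := (QuotientAddGroup.eq).1 hij
    obtain ⟨w, hw⟩ := h1
    rw [QuotientAddGroup.eq, s27gw_mem_L]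
    refine ⟨(w : G), ?_⟩
    have := congrArg (fun a : A s => (a : G)) hw
    simpa [f] using this
  have h1 : n + 1 ≤ Nat.card ((A s) ⧸ f.range) := by
    have := Nat.card_le_card_of_injective h hh
    rwa [Nat.card_fin] at this
  rw [s27gw_card_quot_eq f] at h1
  have h2 : Nat.card f.ker ≤ n := by
    rw [hn]
    refine Nat.card_le_card_of_injective
      (fun x : f.ker => (⟨((x : A s) : G), ?_⟩ : {x : G // ℓ • x = 0})) ?_
    · have := x.2
      rw [AddMonoidHom.mem_ker] at this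
      have h' : ((ℓ • (x : A s) : A s) : G) = 0 := congrArg (fun a : A s => (a : G)) this
      rwa [AddSubgroup.coe_nsmul] at h'
    · intro a b hab
      apply Subtype.ext
      apply Subtype.ext
      exact congrArg (fun a : {x : G // ℓ • x = 0} => (a : G)) hab
  omega

end quot




section lemE

variable {G : Type*} [AddCommGroup G] (ℓ : ℕ)

/-- `1 + ℓ F` is bijective on an `ℓ`-primary group. -/
theorem s27gw_one_add_bij (hprim : ∀ x : G, ∃ j : ℕ, ℓ ^ j • x = 0) (F : Module.End ℤ G) :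
    Function.Bijective (fun x : G => x + ℓ • F x) := by
  have hu : ∀ x : G, ∀ n : ℕ, n • (x + ℓ • F x) = n • x + ℓ • F (n • x) := by
    intro x n
    rw [smul_add, smul_comm, map_nsmul]
  constructor
  · -- injective
    have key : ∀ j : ℕ, ∀ x : G, ℓ ^ j • x = 0 → x + ℓ • F x = 0 → x = 0 := by
      intro j
      induction j with
      | zero => intro x hx _; simpa using hx
      | succ j ih =>
        intro x hx hux
        have h1 : ℓ • x = 0 := by
          apply ih (ℓ • x)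
          · rw [← mul_smul, ← pow_succ]; exact hx
          · rw [← hu, hux, smul_zero]
        have h2 : ℓ • F x = 0 := by rw [← map_nsmul, h1, map_zero]
        rw [h2, add_zero] at hux
        exact hux
    intro x y hxy
    have hxy' : (x - y) + ℓ • F (x - y) = 0 := by
      have h : x + ℓ • F x = y + ℓ • F y := hxy
      rw [map_sub, smul_sub]
      have : x - y + (ℓ • F x - ℓ • F y) = (x + ℓ • F x) - (y + ℓ • F y) := by abel
      rw [this, h, sub_self]
    obtain ⟨j, hj⟩ := hprim (x - y)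
    exact sub_eq_zero.1 (key j _ hj hxy')
  · -- surjective
    have key : ∀ j : ℕ, ∀ z : G, ℓ ^ j • z = 0 → ∃ x : G, x + ℓ • F x = z := by
      intro j
      induction j with
      | zero => intro z hz; exact ⟨0, by simpa using hz.symm⟩
      | succ j ih =>
        intro z hz
        obtain ⟨x', hx'⟩ := ih (-(ℓ • F z)) (by
          rw [smul_neg, ← map_nsmul, ← map_nsmul, ← mul_smul, ← pow_succ, hz, map_zero, neg_zero])
        refine ⟨z + x', ?_⟩
        rw [map_add, smul_add]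
        have : z + x' + (ℓ • F z + ℓ • F x') = z + ℓ • F z + (x' + ℓ • F x') := by abel
        rw [this, hx']
        abel
    intro z
    obtain ⟨j, hj⟩ := hprim z
    exact key j z hj

/-- Lemma E: `∑_{i<ℓ} Ψ^i = ℓ • u` with `u` bijective, if `Ψ` fixes `G[ℓ²]`. -/
theorem s27gw_geom_eq (hprim : ∀ x : G, ∃ j : ℕ, ℓ ^ j • x = 0)
    (hdiv : ∀ x : G, ∃ y : G, ℓ • y = x) (Ψ : Module.End ℤ G)
    (hΨ : ∀ x : G, ℓ ^ 2 • x = 0 → Ψ x = x) :
    ∃ u : G → G, Function.Bijective u ∧ (∀ x y, u (x + y) = u x + u y) ∧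
      ∀ x : G, (∑ i ∈ range ℓ, Ψ ^ i) x = ℓ • u x := by
  classical
  -- a section of `ℓ²`
  have hdiv2 : ∀ x : G, ∃ y : G, ℓ ^ 2 • y = x := by
    intro x
    obtain ⟨y, hy⟩ := hdiv x
    obtain ⟨w, hw⟩ := hdiv y
    exact ⟨w, by rw [pow_two, mul_smul, hw, hy]⟩
  choose σ hσ using hdiv2
  have hN : ∀ a b : G, ℓ ^ 2 • a = ℓ ^ 2 • b → (Ψ - 1) a = (Ψ - 1) b := by
    intro a b hab
    have h1 : ℓ ^ 2 • (a - b) = 0 := by rw [smul_sub, hab, sub_self]
    have h2 := hΨ _ h1
    have h3 : (Ψ - 1) (a - b) = 0 := by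
      rw [LinearMap.sub_apply, Module.End.one_apply, h2, sub_self]
    rw [map_sub, sub_eq_zero] at h3
    exact h3
  -- `E z = (Ψ - 1) (σ z)`
  let E : Module.End ℤ G := AddMonoidHom.toIntLinearMap
    { toFun := fun z => (Ψ - 1) (σ z)
      map_zero' := by
        have := hN (σ 0) 0 (by rw [hσ, smul_zero])
        rw [this, map_zero]
      map_add' := fun a b => by
        have := hN (σ (a + b)) (σ a + σ b) (by rw [smul_add, hσ, hσ, hσ])
        rw [this, map_add] }
  have hE : ∀ a : G, (Ψ - 1) a = E (ℓ ^ 2 • a) := by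
    intro a
    show (Ψ - 1) a = (Ψ - 1) (σ (ℓ ^ 2 • a))
    exact hN _ _ (by rw [hσ])
  -- `T' = ∑_{i<ℓ} ∑_{j<i} Ψ^j`
  set T' : Module.End ℤ G := ∑ i ∈ range ℓ, ∑ j ∈ range i, Ψ ^ j with hT'
  have hS : ∑ i ∈ range ℓ, Ψ ^ i = (ℓ : Module.End ℤ G) + T' * (Ψ - 1) := by
    rw [hT', Finset.sum_mul]
    have : ∀ i ∈ range ℓ, (∑ j ∈ range i, Ψ ^ j) * (Ψ - 1) = Ψ ^ i - 1 := fun i _ =>
      geom_sum_mul Ψ i
    rw [Finset.sum_congr rfl this, Finset.sum_sub_distrib, Finset.sum_const, Finset.card_range]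
    simp
  refine ⟨fun x => x + ℓ • (T' * E) x, s27gw_one_add_bij ℓ hprim (T' * E), ?_, ?_⟩
  · intro x y
    simp only [map_add, smul_add]
    abel
  · intro x
    rw [hS, LinearMap.add_apply, Module.End.natCast_apply, Module.End.mul_apply, hE]
    show ℓ • x + T' (E (ℓ ^ 2 • x)) = ℓ • (x + ℓ • (T' * E) x)
    rw [Module.End.mul_apply, smul_add]
    congr 1
    rw [pow_two, mul_smul, map_nsmul, map_nsmul, map_nsmul, map_nsmul]

end lemE




section lemE

variable {G : Type*} [AddCommGroup G] (ℓ : ℕ)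


/-- fixed points of an endomorphism. -/
def s27gw_Fix (φ : Module.End ℤ G) : AddSubgroup G where
  carrier := {x | φ x = x}
  zero_mem' := map_zero _
  add_mem' := fun {a b} ha hb => by
    show φ (a + b) = a + b
    rw [map_add, ha, hb]
  neg_mem' := fun {a} ha => by
    show φ (-a) = -a
    rw [map_neg, ha]

theorem s27gw_mem_Fix {φ : Module.End ℤ G} {x : G} : x ∈ s27gw_Fix φ ↔ φ x = x := Iff.rfl

/-- (e): the growth of the fixed points in a divisible `ℓ`-primary group. -/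
theorem s27gw_card_fix_pow (hprim : ∀ x : G, ∃ j : ℕ, ℓ ^ j • x = 0)
    (hdiv : ∀ x : G, ∃ y : G, ℓ • y = x) (Ψ : Module.End ℤ G)
    (hΨ : ∀ x : G, ℓ ^ 2 • x = 0 → Ψ x = x) :
    Nat.card (s27gw_Fix (Ψ ^ ℓ)) = Nat.card {x : G // ℓ • x = 0} * Nat.card (s27gw_Fix Ψ) := by
  obtain ⟨u, hub, hua, hu⟩ := s27gw_geom_eq ℓ hprim hdiv Ψ hΨ
  have hmem : ∀ x : G, x ∈ s27gw_Fix (Ψ ^ ℓ) ↔ ℓ • u x ∈ s27gw_Fix Ψ := by
    intro x
    rw [s27gw_mem_Fix, s27gw_mem_Fix, ← hu x, ← sub_eq_zero, ← sub_eq_zero (a := Ψ _)]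
    have h1 : (Ψ ^ ℓ) x - x = (Ψ ^ ℓ - 1) x := by
      rw [LinearMap.sub_apply, Module.End.one_apply]
    have h2 : Ψ ((∑ i ∈ range ℓ, Ψ ^ i) x) - (∑ i ∈ range ℓ, Ψ ^ i) x =
        ((Ψ - 1) * ∑ i ∈ range ℓ, Ψ ^ i) x := by
      rw [Module.End.mul_apply, LinearMap.sub_apply, Module.End.one_apply]
    rw [h1, h2, mul_geom_sum]
  let g : s27gw_Fix (Ψ ^ ℓ) →+ s27gw_Fix Ψ :=
    { toFun := fun x => ⟨ℓ • u x, (hmem x).1 x.2⟩
      map_zero' := by
        apply Subtype.ext
        show ℓ • u (0 : G) = 0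
        have : u 0 = 0 := by
          have := hua 0 0
          rw [add_zero] at this
          exact left_eq_add.mp this
        rw [this, smul_zero]
      map_add' := fun a b => by
        apply Subtype.ext
        show ℓ • u ((a : G) + b) = ℓ • u a + ℓ • u b
        rw [hua, smul_add] }
  have hg : Function.Surjective g := by
    rintro ⟨k, hk⟩
    obtain ⟨y, hy⟩ := hdiv k
    obtain ⟨x, hx⟩ := hub.2 y
    have hxk : ℓ • u x = k := by rw [hx, hy]
    exact ⟨⟨x, (hmem x).2 (by rw [hxk]; exact hk)⟩, Subtype.ext hxk⟩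
  rw [s27gw_card_of_surj g hg]
  congr 1
  refine Nat.card_congr (Equiv.ofBijective
    (fun x : g.ker => (⟨u ((x : s27gw_Fix (Ψ ^ ℓ)) : G), ?_⟩ : {x : G // ℓ • x = 0})) ⟨?_, ?_⟩)
  · have := x.2
    rw [AddMonoidHom.mem_ker] at this
    exact congrArg (fun a : s27gw_Fix Ψ => (a : G)) this
  · intro a b hab
    apply Subtype.ext
    apply Subtype.ext
    exact hub.1 (congrArg (fun a : {x : G // ℓ • x = 0} => (a : G)) hab)
  · rintro ⟨z, hz⟩
    obtain ⟨x, hx⟩ := hub.2 z
    have hxF : x ∈ s27gw_Fix (Ψ ^ ℓ) := (hmem x).2 (by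
      rw [hx, hz]
      exact (s27gw_Fix Ψ).zero_mem)
    refine ⟨⟨⟨x, hxF⟩, ?_⟩, ?_⟩
    · rw [AddMonoidHom.mem_ker]
      apply Subtype.ext
      show ℓ • u x = 0
      rw [hx, hz]
    · apply Subtype.ext
      exact hx

end lemE


end Fermat.Agent.S27
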