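import Mathlib
import Fermat.Agent.S27.Growth.Basic

/-!
# S27 / (G): primary parts, torsion counts, the projector onto the `ℓ`-part

* `s27gw_card_primary`: the `ℓ`-primary part of a finite abelian group has `ℓ ^ v_ℓ(|H|)` elements;
* `s27gw_card_torsion`: `|G[ℓ^k]| = ℓ^(dk)` in an `ℓ`-divisible group with `|G[ℓ]| = ℓ^d`;
* `s27gw_proj`: an integer `c` with `c • y` `ℓ`-primary for `y` of order dividing `h`, `c • x = x`
  on `G[ℓ^a]`.

Pure Mathlib.  Prefix `s27gw_`.
-/

set_option autoImplicit false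
set_option linter.unusedSectionVars false
set_option linter.style.haveILetI false

namespace Fermat.Agent.S27

open Finset


section sylow

variable {H : Type*} [AddCommGroup H] [Finite H] (ℓ : ℕ) [hℓ : Fact ℓ.Prime]

/-- the `ℓ`-primary part of a finite abelian group has `ℓ ^ v_ℓ(|H|)` elements. -/
theorem s27gw_card_primary :
    Nat.card {x : H // ∃ j : ℕ, ℓ ^ j • x = 0} = ℓ ^ padicValNat ℓ (Nat.card H) := by
  classical
  have hn0 : Nat.card H ≠ 0 := Nat.card_pos.ne'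
  obtain ⟨b, n', hn', hn⟩ := Nat.exists_eq_pow_mul_and_not_dvd hn0 ℓ hℓ.out.ne_one
  have hval : padicValNat ℓ (Nat.card H) = b := by
    have hn'0 : n' ≠ 0 := fun h => hn' (by rw [h]; exact dvd_zero _)
    rw [hn, padicValNat.mul (pow_ne_zero _ hℓ.out.ne_zero) hn'0, padicValNat.prime_pow,
      padicValNat.eq_zero_of_not_dvd hn', add_zero]
  rw [hval]
  let f : H →+ H := nsmulAddMonoidHom (ℓ ^ b)
  -- the primary part is `ker f`
  have hker : ∀ x : H, (∃ j : ℕ, ℓ ^ j • x = 0) ↔ x ∈ f.ker := by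
    intro x
    rw [AddMonoidHom.mem_ker]
    show _ ↔ ℓ ^ b • x = 0
    constructor
    · rintro ⟨j, hj⟩
      have h1 : addOrderOf x ∣ ℓ ^ j := addOrderOf_dvd_of_nsmul_eq_zero hj
      obtain ⟨i, -, hi⟩ := (Nat.dvd_prime_pow hℓ.out).1 h1
      have h2 : addOrderOf x ∣ Nat.card H := addOrderOf_dvd_natCard x
      rw [hi, hn] at h2
      have h3 : ℓ ^ i ∣ ℓ ^ b :=
        (Nat.Coprime.pow_left i ((Nat.Prime.coprime_iff_not_dvd hℓ.out).2 hn')).dvd_of_dvd_mul_right h2
      rw [← hi] at h3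
      exact addOrderOf_dvd_iff_nsmul_eq_zero.1 h3
    · intro h
      exact ⟨b, h⟩
  have hcongr : Nat.card {x : H // ∃ j : ℕ, ℓ ^ j • x = 0} = Nat.card f.ker :=
    Nat.card_congr (Equiv.subtypeEquivRight hker)
  rw [hcongr]
  -- `|H| = |ker f| * |range f|`
  have h1 := s27gw_card_of_surj f.rangeRestrict f.rangeRestrict_surjective
  rw [AddMonoidHom.ker_rangeRestrict] at h1
  -- `|ker f|` is a power of `ℓ`
  have hk0 : Nat.card f.ker ≠ 0 := Nat.card_pos.ne'
  obtain ⟨a, hkpow⟩ : ∃ a : ℕ, Nat.card f.ker = ℓ ^ a := by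
    refine ⟨_, Nat.eq_prime_pow_of_unique_prime_dvd hk0 (p := ℓ) ?_⟩
    intro q hq hqd
    haveI : Fact q.Prime := ⟨hq⟩
    obtain ⟨x, hx⟩ := exists_prime_addOrderOf_dvd_card' q hqd
    have hx2 : ℓ ^ b • (x : H) = 0 := by
      have := x.2
      rw [AddMonoidHom.mem_ker] at this
      exact this
    have hx3 : ℓ ^ b • x = 0 := Subtype.ext (by rw [AddSubgroup.coe_nsmul]; exact hx2)
    have h2 : addOrderOf x ∣ ℓ ^ b := addOrderOf_dvd_of_nsmul_eq_zero hx3
    rw [hx] at h2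
    exact (Nat.prime_dvd_prime_iff_eq hq hℓ.out).1 (hq.dvd_of_dvd_pow h2)
  -- `ℓ ∤ |range f|`
  have hr : ¬ ℓ ∣ Nat.card f.range := by
    intro hd
    obtain ⟨z, hz⟩ := exists_prime_addOrderOf_dvd_card' ℓ hd
    obtain ⟨w, hw⟩ := z.2
    have hzne : (z : H) ≠ 0 := by
      intro h0
      have : z = 0 := Subtype.ext h0
      rw [this, addOrderOf_zero] at hz
      exact hℓ.out.ne_one hz.symm
    have hz1 : ℓ • (z : H) = 0 := by
      have := addOrderOf_nsmul_eq_zero z
      rw [hz] at this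
      have := congrArg (fun a : f.range => (a : H)) this
      simpa using this
    have hw' : ℓ ^ b • w = (z : H) := hw
    have h2 : ℓ ^ (b + 1) • w = 0 := by rw [pow_succ', mul_smul, hw', hz1]
    have h3 : addOrderOf w ∣ ℓ ^ (b + 1) := addOrderOf_dvd_of_nsmul_eq_zero h2
    obtain ⟨i, hi, hi'⟩ := (Nat.dvd_prime_pow hℓ.out).1 h3
    have h4 : i = b + 1 := by
      by_contra hne
      have hib : i ≤ b := by omega
      apply hzne
      rw [← hw']
      apply addOrderOf_dvd_iff_nsmul_eq_zero.1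
      rw [hi']
      exact pow_dvd_pow _ hib
    have h5 : ℓ ^ (b + 1) ∣ Nat.card H := by
      rw [← h4, ← hi']
      exact addOrderOf_dvd_natCard w
    rw [hn, pow_succ] at h5
    exact hn' ((Nat.mul_dvd_mul_iff_left (pow_pos hℓ.out.pos b)).1 h5)
  -- compare valuations
  have h6 : padicValNat ℓ (Nat.card H) = a := by
    have hr0 : Nat.card f.range ≠ 0 := Nat.card_pos.ne'
    rw [h1, hkpow, padicValNat.mul (pow_ne_zero _ hℓ.out.ne_zero) hr0, padicValNat.prime_pow,
      padicValNat.eq_zero_of_not_dvd hr, add_zero]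
  rw [hkpow, ← h6, hval]

end sylow



section tors

variable {G : Type*} [AddCommGroup G]

/-- in an `ℓ`-divisible group with `|G[ℓ]| = ℓ ^ d`, `|G[ℓ ^ k]| = ℓ ^ (d k)`. -/
theorem s27gw_card_torsion (ℓ d : ℕ) (hdiv : ∀ x : G, ∃ y : G, ℓ • y = x)
    (hT : Nat.card {x : G // ℓ • x = 0} = ℓ ^ d) (k : ℕ) :
    Nat.card {x : G // ℓ ^ k • x = 0} = ℓ ^ (d * k) := by
  induction k with
  | zero =>
    rw [mul_zero, pow_zero]
    have h : ∀ x : G, 1 • x = 0 ↔ x = 0 := fun x => by rw [one_smul]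
    rw [Nat.card_congr (Equiv.subtypeEquivRight h)]
    exact Nat.card_eq_one_iff_unique.2
      ⟨⟨fun a b => Subtype.ext (a.2.trans b.2.symm)⟩, ⟨⟨0, rfl⟩⟩⟩
  | succ k ih =>
    let K : ℕ → AddSubgroup G := fun j => (nsmulAddMonoidHom (ℓ ^ j) : G →+ G).ker
    have hK : ∀ j (x : G), x ∈ K j ↔ ℓ ^ j • x = 0 := fun j x => AddMonoidHom.mem_ker
    have hcK : ∀ j, Nat.card {x : G // ℓ ^ j • x = 0} = Nat.card (K j) := fun j =>
      Nat.card_congr (Equiv.subtypeEquivRight (fun x => (hK j x).symm))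
    rw [hcK] at ih ⊢
    let g : K (k + 1) →+ K k :=
      { toFun := fun x => ⟨ℓ • (x : G), by
          rw [hK, ← mul_smul, ← pow_succ]
          exact (hK _ _).1 x.2⟩
        map_zero' := Subtype.ext (smul_zero _)
        map_add' := fun a b => Subtype.ext (smul_add _ _ _) }
    have hg : Function.Surjective g := by
      rintro ⟨z, hz⟩
      obtain ⟨y, hy⟩ := hdiv z
      refine ⟨⟨y, ?_⟩, Subtype.ext hy⟩
      rw [hK, pow_succ, mul_smul, hy]
      exact (hK _ _).1 hz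
    rw [s27gw_card_of_surj g hg, ih]
    have hker : Nat.card g.ker = ℓ ^ d := by
      rw [← hT]
      refine Nat.card_congr (Equiv.ofBijective
        (fun x : g.ker => (⟨((x : K (k + 1)) : G), ?_⟩ : {x : G // ℓ • x = 0})) ⟨?_, ?_⟩)
      · have := x.2
        rw [AddMonoidHom.mem_ker] at this
        exact congrArg (fun a : K k => (a : G)) this
      · intro a b hab
        apply Subtype.ext
        apply Subtype.ext
        exact congrArg (fun a : {x : G // ℓ • x = 0} => (a : G)) hab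
      · rintro ⟨z, hz⟩
        have hzK : z ∈ K (k + 1) := by
          rw [hK, pow_succ, mul_smul, hz, smul_zero]
        refine ⟨⟨⟨z, hzK⟩, ?_⟩, rfl⟩
        rw [AddMonoidHom.mem_ker]
        exact Subtype.ext hz
    rw [hker, ← pow_add]
    congr 1
    ring

end tors



section proj

variable {G : Type*} [AddCommGroup G]

/-- the integer multiplier projecting onto the `ℓ`-primary part. -/
theorem s27gw_proj (ℓ : ℕ) [hℓ : Fact ℓ.Prime] (h : ℕ) (h0 : h ≠ 0) (a : ℕ) :
    ∃ (c : ℤ) (b : ℕ), (∀ y : G, h • y = 0 → ℓ ^ b • (c • y) = 0) ∧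
      (∀ x : G, ℓ ^ a • x = 0 → c • x = x) := by
  obtain ⟨b, h', hh', hh⟩ := Nat.exists_eq_pow_mul_and_not_dvd h0 ℓ hℓ.out.ne_one
  have hcop : IsCoprime (h' : ℤ) ((ℓ : ℤ) ^ a) := by
    apply IsCoprime.pow_right
    rw [Nat.isCoprime_iff_coprime]
    exact ((Nat.Prime.coprime_iff_not_dvd hℓ.out).2 hh').symm
  obtain ⟨u, v, huv⟩ := hcop
  refine ⟨u * h', b, fun y hy => ?_, fun x hx => ?_⟩
  · rw [← natCast_zsmul, smul_smul]
    have : ((ℓ ^ b : ℕ) : ℤ) * (u * h') = u * ((ℓ ^ b * h' : ℕ) : ℤ) := by push_cast; ring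
    rw [this, ← hh, mul_smul, natCast_zsmul, hy, smul_zero]
  · have : u * (h' : ℤ) = 1 - v * (ℓ : ℤ) ^ a := by linarith
    rw [this, sub_smul, one_smul, mul_smul]
    have : ((ℓ : ℤ) ^ a) • x = 0 := by
      have h1 : ((ℓ : ℤ) ^ a) = ((ℓ ^ a : ℕ) : ℤ) := by push_cast; rfl
      rw [h1, natCast_zsmul, hx]
    rw [this, smul_zero, sub_zero]

end proj


end Fermat.Agent.S27
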