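import Mathlib
import Fermat.Agent.S27.Growth.Basic

/-!
# S27 / (G): growth of fixed points => structure.  Part 2: the unipotent case

`G` an `ℓ`-primary abelian group, `ψ` an endomorphism with `G = ⋃ Fix (ψ ^ ℓ ^ s)`,
`|Fix (ψ ^ ℓ ^ s)| = ℓ ^ (c + d s)` and surjective norms.  Then `G` is divisible and
`|G[ℓ]| = ℓ ^ d` (`s27gw_unip`).  Pure Mathlib.  Prefix `s27gw_`.
-/

set_option autoImplicit false
set_option linter.unusedSectionVars false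
set_option linter.style.haveILetI false

namespace Fermat.Agent.S27

open Finset

section unip

variable {G : Type*} [AddCommGroup G] (ℓ : ℕ) (ψ : Module.End ℤ G)

/-- fixed points of `ψ ^ (ℓ ^ s)`. -/
def s27gw_A (s : ℕ) : AddSubgroup G := s27gw_Fix (ψ ^ (ℓ ^ s))

theorem s27gw_mem_A {s : ℕ} {x : G} : x ∈ s27gw_A ℓ ψ s ↔ (ψ ^ (ℓ ^ s)) x = x := Iff.rfl

/-- elements killed by `ℓ` and by `(ψ - 1) ^ j`. -/
def s27gw_V (j : ℕ) : AddSubgroup G where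
  carrier := {x | ℓ • x = 0 ∧ ((ψ - 1) ^ j) x = 0}
  zero_mem' := ⟨smul_zero _, map_zero _⟩
  add_mem' := fun {a b} ha hb => ⟨by rw [smul_add, ha.1, hb.1, add_zero],
    by rw [map_add, ha.2, hb.2, add_zero]⟩
  neg_mem' := fun {a} ha => ⟨by rw [smul_neg, ha.1, neg_zero], by rw [map_neg, ha.2, neg_zero]⟩

theorem s27gw_mem_V {j : ℕ} {x : G} : x ∈ s27gw_V ℓ ψ j ↔ ℓ • x = 0 ∧ ((ψ - 1) ^ j) x = 0 := Iff.rfl

/-- the `ℓ`-torsion. -/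
def s27gw_T : AddSubgroup G where
  carrier := {x | ℓ • x = 0}
  zero_mem' := smul_zero _
  add_mem' := fun {a b} ha hb => by
    show ℓ • (a + b) = 0
    rw [smul_add, ha, hb, add_zero]
  neg_mem' := fun {a} ha => by
    show ℓ • (-a) = 0
    rw [smul_neg, ha, neg_zero]

theorem s27gw_mem_T {x : G} : x ∈ s27gw_T (G := G) ℓ ↔ ℓ • x = 0 := Iff.rfl

theorem s27gw_pow_fix {φ : Module.End ℤ G} {x : G} (h : φ x = x) (n : ℕ) : (φ ^ n) x = x := by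
  induction n with
  | zero => rfl
  | succ n ih => rw [pow_succ, Module.End.mul_apply, h, ih]

theorem s27gw_A_mono (s : ℕ) : s27gw_A ℓ ψ s ≤ s27gw_A ℓ ψ (s + 1) := by
  intro x hx
  rw [s27gw_mem_A] at hx ⊢
  rw [pow_succ, pow_mul]
  exact s27gw_pow_fix hx ℓ

theorem s27gw_A_mono' {s t : ℕ} (h : s ≤ t) : s27gw_A ℓ ψ s ≤ s27gw_A ℓ ψ t := by
  induction t, h using Nat.le_induction with
  | base => exact le_rfl
  | succ t _ ih => exact ih.trans (s27gw_A_mono ℓ ψ t)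

theorem s27gw_V_mono (j : ℕ) : s27gw_V ℓ ψ j ≤ s27gw_V ℓ ψ (j + 1) := by
  intro x hx
  rw [s27gw_mem_V] at hx ⊢
  refine ⟨hx.1, ?_⟩
  rw [pow_succ', Module.End.mul_apply, hx.2, map_zero]

theorem s27gw_V_mono' {i j : ℕ} (h : i ≤ j) : s27gw_V ℓ ψ i ≤ s27gw_V ℓ ψ j := by
  induction j, h using Nat.le_induction with
  | base => exact le_rfl
  | succ t _ ih => exact ih.trans (s27gw_V_mono ℓ ψ t)

theorem s27gw_V_stab (j : ℕ) (h : s27gw_V ℓ ψ j = s27gw_V ℓ ψ (j + 1)) :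
    s27gw_V ℓ ψ (j + 1) = s27gw_V ℓ ψ (j + 2) := by
  apply le_antisymm (s27gw_V_mono ℓ ψ (j + 1))
  intro x hx
  rw [s27gw_mem_V] at hx ⊢
  refine ⟨hx.1, ?_⟩
  have h1 : (ψ - 1) x ∈ s27gw_V ℓ ψ (j + 1) := by
    rw [s27gw_mem_V]
    refine ⟨by rw [← map_nsmul, hx.1, map_zero], ?_⟩
    rw [← Module.End.mul_apply, ← pow_succ]
    exact hx.2
  rw [← h, s27gw_mem_V] at h1
  rw [pow_succ, Module.End.mul_apply]
  exact h1.2

variable [hℓ : Fact ℓ.Prime]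

/-- on the `ℓ`-torsion, `ψ ^ (ℓ ^ s) - 1 = (ψ - 1) ^ (ℓ ^ s)`. -/
theorem s27gw_frob {x : G} (hx : ℓ • x = 0) (s : ℕ) :
    (ψ ^ (ℓ ^ s)) x = ((ψ - 1) ^ (ℓ ^ s)) x + x := by
  obtain ⟨r, hr⟩ := Commute.exists_add_pow_prime_pow_eq hℓ.out (Commute.one_right (ψ - 1)) s
  rw [sub_add_cancel, one_pow] at hr
  rw [hr]
  simp only [LinearMap.add_apply, Module.End.one_apply, Module.End.mul_apply]
  have : ((ℓ : Module.End ℤ G)) ((ψ - 1) (r x)) = 0 := by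
    rw [Module.End.natCast_apply, ← map_nsmul, ← map_nsmul, hx, map_zero, map_zero]
  rw [this, add_zero]

theorem s27gw_V_eq (s : ℕ) {x : G} (hx : ℓ • x = 0) :
    x ∈ s27gw_V ℓ ψ (ℓ ^ s) ↔ x ∈ s27gw_A ℓ ψ s := by
  rw [s27gw_mem_V, s27gw_mem_A, s27gw_frob ℓ ψ hx s]
  constructor
  · rintro ⟨_, h⟩
    rw [h, zero_add]
  · intro h
    exact ⟨hx, by simpa using h⟩

/-- (c): the `ℓ`-torsion is finite. -/
theorem s27gw_T_finite (c d : ℕ)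
    (hper : ∀ x : G, ∃ s, (ψ ^ (ℓ ^ s)) x = x)
    (hcard : ∀ s, Nat.card (s27gw_A ℓ ψ s) = ℓ ^ (c + d * s)) :
    ∃ s, s27gw_T (G := G) ℓ ≤ s27gw_A ℓ ψ s := by
  have hAfin : ∀ s, Finite (s27gw_A ℓ ψ s) := fun s =>
    Nat.finite_of_card_ne_zero (by rw [hcard s]; exact pow_ne_zero _ hℓ.out.ne_zero)
  have hVle : ∀ s, s27gw_V ℓ ψ (ℓ ^ s) ≤ s27gw_A ℓ ψ s := fun s x hx =>
    (s27gw_V_eq ℓ ψ s hx.1).1 hx
  have hlt : ∀ j, j < ℓ ^ j := fun j => Nat.lt_pow_self hℓ.out.one_lt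
  have hVfin : ∀ j, Finite (s27gw_V ℓ ψ j) := fun j => by
    haveI := hAfin j
    exact Finite.of_injective (fun x : s27gw_V ℓ ψ j =>
      (⟨x.1, hVle j (s27gw_V_mono' ℓ ψ (hlt j).le x.2)⟩ : s27gw_A ℓ ψ j))
      (fun a b h => Subtype.ext (congrArg (fun z : s27gw_A ℓ ψ j => (z : G)) h))
  -- the chain stabilises
  have hex : ∃ j, s27gw_V ℓ ψ j = s27gw_V ℓ ψ (j + 1) := by
    by_contra hne
    have hne' : ∀ j, s27gw_V ℓ ψ j ≠ s27gw_V ℓ ψ (j + 1) := fun j h => hne ⟨j, h⟩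
    obtain ⟨s, hs⟩ := s27gw_exists_lt_pow ℓ hℓ.out.two_le c d
    have h1 := s27gw_chain ℓ (s27gw_V ℓ ψ) (s27gw_V_mono ℓ ψ) hVfin (fun j x hx => hx.1) hne' (ℓ ^ s)
    haveI := hAfin s
    have h2 : Nat.card (s27gw_V ℓ ψ (ℓ ^ s)) ≤ Nat.card (s27gw_A ℓ ψ s) :=
      Nat.card_le_card_of_injective (fun x : s27gw_V ℓ ψ (ℓ ^ s) =>
        (⟨x.1, hVle s x.2⟩ : s27gw_A ℓ ψ s))
        (fun a b h => Subtype.ext (congrArg (fun z : s27gw_A ℓ ψ s => (z : G)) h))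
    rw [hcard s] at h2
    have h3 := h1.trans h2
    have h4 := (Nat.pow_le_pow_iff_right hℓ.out.one_lt).1 h3
    omega
  obtain ⟨j0, hj0⟩ := hex
  refine ⟨j0, fun x hx => ?_⟩
  obtain ⟨s, hs⟩ := hper x
  have h1 : x ∈ s27gw_V ℓ ψ (ℓ ^ s) := (s27gw_V_eq ℓ ψ s hx).2 hs
  have h2 : x ∈ s27gw_V ℓ ψ (j0 + ℓ ^ s) := s27gw_V_mono' ℓ ψ (Nat.le_add_left _ _) h1
  rw [s27gw_stab (s27gw_V ℓ ψ) (s27gw_V_stab ℓ ψ) j0 hj0] at h2
  exact hVle j0 (s27gw_V_mono' ℓ ψ (hlt j0).le h2)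

end unip

section div

variable {G : Type*} [AddCommGroup G] (ℓ : ℕ) (ψ : Module.End ℤ G)

theorem s27gw_sub_mem_L_pow {Ψ : Module.End ℤ G} (h : ∀ z : G, Ψ z - z ∈ s27gw_L (G := G) ℓ) (j : ℕ) (z : G) :
    (Ψ ^ j) z - z ∈ s27gw_L (G := G) ℓ := by
  induction j with
  | zero => simp
  | succ j ih =>
    have : (Ψ ^ (j + 1)) z - z = (Ψ ((Ψ ^ j) z) - (Ψ ^ j) z) + ((Ψ ^ j) z - z) := by
      rw [pow_succ', Module.End.mul_apply]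
      abel
    rw [this]
    exact (s27gw_L ℓ).add_mem (h _) ih

/-- (d): norm-surjectivity forces divisibility. -/
theorem s27gw_divisible
    (hper : ∀ x : G, ∃ s, (ψ ^ (ℓ ^ s)) x = x)
    (hfin : ∀ s, Finite (s27gw_A ℓ ψ s))
    (hT : Finite {x : G // ℓ • x = 0})
    (hnorm : ∀ s, ∀ x : G, (ψ ^ (ℓ ^ s)) x = x →
      ∃ y, ∑ i ∈ range ℓ, ((ψ ^ (ℓ ^ s)) ^ i) y = x) :
    ∀ x : G, ∃ y : G, ℓ • y = x := by
  classical
  haveI : Finite (G ⧸ s27gw_L (G := G) ℓ) :=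
    s27gw_quot_finite ℓ (s27gw_A ℓ ψ) (monotone_nat_of_le_succ (s27gw_A_mono ℓ ψ)) hfin hper hT
  haveI := Fintype.ofFinite (G ⧸ s27gw_L (G := G) ℓ)
  -- (d2)
  obtain ⟨s1, hs1⟩ : ∃ s1, ∀ z : G, (ψ ^ (ℓ ^ s1)) z - z ∈ s27gw_L (G := G) ℓ := by
    let rep : G ⧸ s27gw_L (G := G) ℓ → G := fun q => Quotient.out q
    have hrep : ∀ q, (QuotientAddGroup.mk (rep q) : G ⧸ s27gw_L (G := G) ℓ) = q := fun q =>
      QuotientAddGroup.out_eq' q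
    choose sq hsq using fun q => hper (rep q)
    refine ⟨Finset.univ.sup sq, fun z => ?_⟩
    set s1 := Finset.univ.sup sq
    set q : G ⧸ s27gw_L (G := G) ℓ := QuotientAddGroup.mk z with hq
    have h1 : (QuotientAddGroup.mk (rep q) : G ⧸ s27gw_L (G := G) ℓ) = QuotientAddGroup.mk z := hrep q
    rw [QuotientAddGroup.eq, s27gw_mem_L] at h1
    obtain ⟨w, hw⟩ := h1
    have hfix : (ψ ^ (ℓ ^ s1)) (rep q) = rep q :=
      s27gw_A_mono' ℓ ψ (Finset.le_sup (Finset.mem_univ q)) (hsq q)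
    have hz : z = rep q + ℓ • w := by rw [hw]; abel
    rw [s27gw_mem_L]
    refine ⟨(ψ ^ (ℓ ^ s1)) w - w, ?_⟩
    conv_rhs => rw [hz]
    rw [map_add, map_nsmul, hfix, smul_sub]
    abel
  intro x
  obtain ⟨s, hs⟩ := hper x
  have hx' : (ψ ^ (ℓ ^ (max s s1))) x = x := s27gw_A_mono' ℓ ψ (le_max_left s s1) hs
  obtain ⟨y, hy⟩ := hnorm (max s s1) x hx'
  rw [← s27gw_mem_L]
  have hpow : ψ ^ (ℓ ^ (max s s1)) = (ψ ^ (ℓ ^ s1)) ^ (ℓ ^ (max s s1 - s1)) := by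
    rw [← pow_mul, ← pow_add, Nat.add_sub_cancel' (le_max_right s s1)]
  have hterm : ∀ i, ((ψ ^ (ℓ ^ (max s s1))) ^ i) y - y ∈ s27gw_L (G := G) ℓ := by
    intro i
    rw [hpow, ← pow_mul]
    exact s27gw_sub_mem_L_pow ℓ hs1 _ y
  have hx : x = ∑ i ∈ range ℓ, (((ψ ^ (ℓ ^ (max s s1))) ^ i) y - y) + ℓ • y := by
    rw [Finset.sum_sub_distrib, hy, Finset.sum_const, Finset.card_range]
    abel
  rw [hx]
  refine (s27gw_L ℓ).add_mem ((s27gw_L ℓ).sum_mem fun i _ => hterm i) ?_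
  rw [s27gw_mem_L]
  exact ⟨y, rfl⟩

end div

section unip

variable {G : Type*} [AddCommGroup G] (ℓ : ℕ) [hℓ : Fact ℓ.Prime] (ψ : Module.End ℤ G)

/-- if `Ψ` fixes `G[ℓ]` then `Ψ ^ ℓ` fixes `G[ℓ²]`. -/
theorem s27gw_fix_sq {Ψ : Module.End ℤ G} (h : ∀ x : G, ℓ • x = 0 → Ψ x = x) (x : G)
    (hx : ℓ ^ 2 • x = 0) : (Ψ ^ ℓ) x = x := by
  set w := Ψ x - x with hw
  have hw1 : ℓ • w = 0 := by
    rw [hw, smul_sub, ← map_nsmul]
    have : ℓ • (ℓ • x) = 0 := by rw [← mul_smul, ← pow_two]; exact hx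
    rw [h _ this, sub_self]
  have hw2 : Ψ w = w := h w hw1
  have key : ∀ j : ℕ, (Ψ ^ j) x = x + j • w := by
    intro j
    induction j with
    | zero => simp
    | succ j ih =>
      rw [pow_succ', Module.End.mul_apply, ih, map_add, map_nsmul, hw2, succ_nsmul]
      have : Ψ x = x + w := by rw [hw]; abel
      rw [this]
      abel
  rw [key ℓ, hw1, add_zero]

/-- the unipotent case, counting part: divisibility given. -/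
theorem s27gw_unip_of_div
    (hprim : ∀ x : G, ∃ j : ℕ, ℓ ^ j • x = 0)
    (hper : ∀ x : G, ∃ s, (ψ ^ (ℓ ^ s)) x = x) (c d : ℕ)
    (hcard : ∀ s, Nat.card (s27gw_A ℓ ψ s) = ℓ ^ (c + d * s))
    (hdiv : ∀ x : G, ∃ y : G, ℓ • y = x) :
    Nat.card {x : G // ℓ • x = 0} = ℓ ^ d := by
  obtain ⟨s0, hs0⟩ := s27gw_T_finite ℓ ψ c d hper hcard
  have hΨ : ∀ x : G, ℓ ^ 2 • x = 0 → (ψ ^ (ℓ ^ (s0 + 1))) x = x := by
    intro x hx
    rw [pow_succ, pow_mul]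
    exact s27gw_fix_sq ℓ (fun y hy => hs0 hy) x hx
  have h1 := s27gw_card_fix_pow ℓ hprim hdiv (ψ ^ (ℓ ^ (s0 + 1))) hΨ
  have h2 : (ψ ^ (ℓ ^ (s0 + 1))) ^ ℓ = ψ ^ (ℓ ^ (s0 + 1 + 1)) := by
    rw [← pow_mul, ← pow_succ]
  rw [h2] at h1
  have h3 := hcard (s0 + 1 + 1)
  have h4 := hcard (s0 + 1)
  rw [s27gw_A] at h3 h4
  rw [h3, h4] at h1
  have h5 : ℓ ^ (c + d * (s0 + 1 + 1)) = ℓ ^ d * ℓ ^ (c + d * (s0 + 1)) := by
    rw [← pow_add]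
    congr 1
    ring
  rw [h5] at h1
  exact (Nat.eq_of_mul_eq_mul_right (pow_pos hℓ.out.pos _) h1).symm

/-- **The unipotent case.** -/
theorem s27gw_unip
    (hprim : ∀ x : G, ∃ j : ℕ, ℓ ^ j • x = 0)
    (hper : ∀ x : G, ∃ s, (ψ ^ (ℓ ^ s)) x = x) (c d : ℕ)
    (hcard : ∀ s, Nat.card (s27gw_A ℓ ψ s) = ℓ ^ (c + d * s))
    (hnorm : ∀ s, ∀ x : G, (ψ ^ (ℓ ^ s)) x = x →
      ∃ y, ∑ i ∈ range ℓ, ((ψ ^ (ℓ ^ s)) ^ i) y = x) :
    (∀ x : G, ∃ y : G, ℓ • y = x) ∧ Nat.card {x : G // ℓ • x = 0} = ℓ ^ d := by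
  have hfin : ∀ s, Finite (s27gw_A ℓ ψ s) := fun s =>
    Nat.finite_of_card_ne_zero (by rw [hcard s]; exact pow_ne_zero _ hℓ.out.ne_zero)
  obtain ⟨s0, hs0⟩ := s27gw_T_finite ℓ ψ c d hper hcard
  have hT : Finite {x : G // ℓ • x = 0} := by
    haveI := hfin s0
    exact Finite.of_injective (fun x : {x : G // ℓ • x = 0} =>
      (⟨x.1, hs0 x.2⟩ : s27gw_A ℓ ψ s0))
      (fun a b h => Subtype.ext (congrArg (fun z : s27gw_A ℓ ψ s0 => (z : G)) h))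
  have hdiv := s27gw_divisible ℓ ψ hper hfin hT hnorm
  exact ⟨hdiv, s27gw_unip_of_div ℓ ψ hprim hper c d hcard hdiv⟩

end unip

end Fermat.Agent.S27
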