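import Mathlib
import Fermat.Agent.S27.Growth.Unip
import Fermat.Agent.S27.Growth.Sylow
import Fermat.Agent.S27.Growth.Mat

/-!
# S27 / (G) + (DIV from norms): the main statement

`G` an abelian group with an additive endomorphism `φ` such that every element is fixed by some
`φ^[m]`, the fixed points of `φ^[m]` form a finite group of order `|det (1 - M ^ m)|` for an integer
`d × d` matrix `M` with `ℓ ∤ det M`, and all the norm maps between the fixed groups are surjective.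
Then `|G[ℓ ^ k]| = ℓ ^ (d k)` (`s27gw_main`; `s27gw_main_end` is the same for a `ℤ`-linear
endomorphism and its powers).

Intended use: `G = Pic⁰` of `F₀ · 𝔽̄_q`, `φ` = Frobenius of the constants, `M` = an integer matrix
with `det (1 - t M) = L(t)`, `d = 2 g`.  Pure Mathlib.  Prefix `s27gw_`.
-/

set_option autoImplicit false
set_option linter.unusedSectionVars false
set_option linter.style.haveILetI false

namespace Fermat.Agent.S27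

open Finset

section main

variable {G : Type*} [AddCommGroup G] (ℓ : ℕ) (ψ : Module.End ℤ G)

/-- the `ℓ`-primary, `ψ`-unipotent part. -/
def s27gw_D : Submodule ℤ G where
  carrier := {x | (∃ j : ℕ, ℓ ^ j • x = 0) ∧ ∃ s : ℕ, (ψ ^ (ℓ ^ s)) x = x}
  zero_mem' := ⟨⟨0, smul_zero _⟩, ⟨0, map_zero _⟩⟩
  add_mem' := by
    rintro a b ⟨⟨j1, hj1⟩, ⟨s1, hs1⟩⟩ ⟨⟨j2, hj2⟩, ⟨s2, hs2⟩⟩
    refine ⟨⟨j1 + j2, ?_⟩, ⟨max s1 s2, ?_⟩⟩
    · have h1 : ℓ ^ (j1 + j2) • a = 0 := by rw [pow_add, mul_comm, mul_smul, hj1, smul_zero]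
      have h2 : ℓ ^ (j1 + j2) • b = 0 := by rw [pow_add, mul_smul, hj2, smul_zero]
      rw [smul_add, h1, h2, add_zero]
    · have h1 : (ψ ^ (ℓ ^ (max s1 s2))) a = a := s27gw_A_mono' ℓ ψ (le_max_left s1 s2) hs1
      have h2 : (ψ ^ (ℓ ^ (max s1 s2))) b = b := s27gw_A_mono' ℓ ψ (le_max_right s1 s2) hs2
      rw [map_add, h1, h2]
  smul_mem' := by
    rintro c a ⟨⟨j, hj⟩, ⟨s, hs⟩⟩
    refine ⟨⟨j, ?_⟩, ⟨s, ?_⟩⟩
    · rw [smul_comm, hj, smul_zero]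
    · rw [map_zsmul, hs]

theorem s27gw_mem_D {x : G} : x ∈ s27gw_D ℓ ψ ↔
    (∃ j : ℕ, ℓ ^ j • x = 0) ∧ ∃ s : ℕ, (ψ ^ (ℓ ^ s)) x = x := Iff.rfl

theorem s27gw_pow_comm_apply (n : ℕ) (x : G) : (ψ ^ n) (ψ x) = ψ ((ψ ^ n) x) := by
  rw [← Module.End.mul_apply, ← Module.End.mul_apply, ← pow_succ, ← pow_succ']

theorem s27gw_D_stable : ∀ x ∈ s27gw_D ℓ ψ, ψ x ∈ s27gw_D ℓ ψ := by
  rintro x ⟨⟨j, hj⟩, ⟨s, hs⟩⟩
  refine ⟨⟨j, ?_⟩, ⟨s, ?_⟩⟩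
  · rw [← map_nsmul, hj, map_zero]
  · rw [s27gw_pow_comm_apply, hs]

/-- `ψ` restricted to `D`. -/
def s27gw_psiD : Module.End ℤ (s27gw_D ℓ ψ) := ψ.restrict (s27gw_D_stable ℓ ψ)

theorem s27gw_psiD_pow_coe (n : ℕ) (x : s27gw_D ℓ ψ) :
    (((s27gw_psiD ℓ ψ) ^ n) x : G) = (ψ ^ n) (x : G) := by
  rw [s27gw_psiD, Module.End.pow_restrict n (s27gw_D_stable ℓ ψ)]
  rfl

end main

section valid

variable {G : Type*} [AddCommGroup G] (ℓ : ℕ) [hℓ : Fact ℓ.Prime] (Φ : Module.End ℤ G)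
  {d : ℕ} (M : Matrix (Fin d) (Fin d) ℤ)

theorem s27gw_valid
    (hcard : ∀ m, 0 < m → (1 - M ^ m).det ≠ 0 ∧
      Nat.card (s27gw_Fix (Φ ^ m)) = ((1 - M ^ m).det).natAbs)
    (hnorm : ∀ m t, 0 < m → 0 < t → ∀ x : G, (Φ ^ m) x = x →
      ∃ y : G, (Φ ^ (m * t)) y = y ∧ ∑ i ∈ range t, (Φ ^ (m * i)) y = x)
    (m : ℕ) (hm : 0 < m)
    (hgrow : ∀ s : ℕ, padicValNat ℓ ((1 - M ^ (m * ℓ ^ s)).det.natAbs) =
        padicValNat ℓ ((1 - M ^ m).det.natAbs) + d * s) :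
    (∀ x : s27gw_D ℓ (Φ ^ m), ∃ y : s27gw_D ℓ (Φ ^ m), ℓ • y = x) ∧
      Nat.card {x : s27gw_D ℓ (Φ ^ m) // ℓ • x = 0} = ℓ ^ d := by
  classical
  set ψ := Φ ^ m with hψ
  have hψpow : ∀ n : ℕ, ψ ^ n = Φ ^ (m * n) := fun n => by rw [hψ, ← pow_mul]
  have hpos : ∀ s : ℕ, 0 < m * ℓ ^ s := fun s => Nat.mul_pos hm (pow_pos hℓ.out.pos _)
  have hfinH : ∀ n, 0 < n → Finite (s27gw_Fix (Φ ^ n)) := fun n hn =>
    Nat.finite_of_card_ne_zero (by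
      rw [(hcard n hn).2]
      exact Int.natAbs_ne_zero.2 (hcard n hn).1)
  apply s27gw_unip ℓ (s27gw_psiD ℓ ψ) (c := padicValNat ℓ ((1 - M ^ m).det.natAbs)) (d := d)
  · -- hprim
    rintro ⟨x, ⟨j, hj⟩, _⟩
    exact ⟨j, Subtype.ext hj⟩
  · -- hper
    rintro ⟨x, hx1, ⟨s, hs⟩⟩
    refine ⟨s, Subtype.ext ?_⟩
    rw [s27gw_psiD_pow_coe]
    exact hs
  · -- hcard
    intro s
    haveI := hfinH _ (hpos s)
    rw [← hgrow s, ← (hcard _ (hpos s)).2, ← s27gw_card_primary ℓ]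
    refine Nat.card_congr
      { toFun := fun x => ⟨⟨((x : s27gw_D ℓ ψ) : G), ?_⟩, ?_⟩
        invFun := fun y => ⟨⟨((y : s27gw_Fix (Φ ^ (m * ℓ ^ s))) : G), ?_⟩, ?_⟩
        left_inv := fun x => rfl
        right_inv := fun y => rfl }
    · have := x.2
      rw [s27gw_mem_A] at this
      have h2 := congrArg (fun a : s27gw_D ℓ ψ => (a : G)) this
      simp only [s27gw_psiD_pow_coe] at h2
      rw [s27gw_mem_Fix, ← hψpow]
      exact h2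
    · obtain ⟨j, hj⟩ := (x : s27gw_D ℓ ψ).2.1
      exact ⟨j, Subtype.ext hj⟩
    · obtain ⟨j, hj⟩ := y.2
      refine ⟨⟨j, ?_⟩, ⟨s, ?_⟩⟩
      · exact congrArg (fun a : s27gw_Fix (Φ ^ (m * ℓ ^ s)) => (a : G)) hj
      · rw [hψpow]
        exact (y : s27gw_Fix (Φ ^ (m * ℓ ^ s))).2
    · rw [s27gw_mem_A]
      apply Subtype.ext
      rw [s27gw_psiD_pow_coe]
      show (ψ ^ ℓ ^ s) ((y : s27gw_Fix (Φ ^ (m * ℓ ^ s))) : G) =
        ((y : s27gw_Fix (Φ ^ (m * ℓ ^ s))) : G)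
      rw [hψpow]
      exact (y : s27gw_Fix (Φ ^ (m * ℓ ^ s))).2
  · -- hnorm
    rintro s ⟨x, ⟨a, ha⟩, hx2⟩ hfix
    have hfix' : (Φ ^ (m * ℓ ^ s)) x = x := by
      have := congrArg (fun a : s27gw_D ℓ ψ => (a : G)) hfix
      simp only [s27gw_psiD_pow_coe] at this
      rw [← hψpow]
      exact this
    obtain ⟨y0, hy0, hsum⟩ := hnorm (m * ℓ ^ s) ℓ (hpos s) hℓ.out.pos x hfix'
    have hms : m * ℓ ^ s * ℓ = m * ℓ ^ (s + 1) := by rw [pow_succ, mul_assoc]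
    rw [hms] at hy0
    haveI := hfinH _ (hpos (s + 1))
    set h := Nat.card (s27gw_Fix (Φ ^ (m * ℓ ^ (s + 1)))) with hh
    have h0 : h ≠ 0 := Nat.card_pos.ne'
    have hhy : h • y0 = 0 := by
      have := card_nsmul_eq_zero' (G := s27gw_Fix (Φ ^ (m * ℓ ^ (s + 1)))) (x := ⟨y0, hy0⟩)
      exact congrArg (fun a : s27gw_Fix (Φ ^ (m * ℓ ^ (s + 1))) => (a : G)) this
    obtain ⟨c, b, hc1, hc2⟩ := s27gw_proj (G := G) ℓ h h0 a
    have hy1D : c • y0 ∈ s27gw_D ℓ ψ := by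
      refine ⟨⟨b, hc1 y0 hhy⟩, ⟨s + 1, ?_⟩⟩
      rw [hψpow, map_zsmul, hy0]
    refine ⟨⟨c • y0, hy1D⟩, Subtype.ext ?_⟩
    rw [AddSubmonoidClass.coe_finsetSum]
    have hterm : ∀ i ∈ range ℓ,
        ((((s27gw_psiD ℓ ψ ^ ℓ ^ s) ^ i) ⟨c • y0, hy1D⟩ : s27gw_D ℓ ψ) : G) =
          c • (Φ ^ (m * ℓ ^ s * i)) y0 := by
      intro i _
      rw [← pow_mul, s27gw_psiD_pow_coe, hψpow, map_zsmul, mul_assoc]
    rw [Finset.sum_congr rfl hterm, ← Finset.smul_sum, hsum]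
    exact hc2 x ha

end valid

section final

variable {G : Type*} [AddCommGroup G] (ℓ : ℕ) [hℓ : Fact ℓ.Prime] (Φ : Module.End ℤ G)
  {d : ℕ} (M : Matrix (Fin d) (Fin d) ℤ)

/-- **(G) + (DIV from norms)**, endomorphism form. -/
theorem s27gw_main_end (hM : ¬ (ℓ : ℤ) ∣ M.det)
    (hper : ∀ x : G, ∃ m, 0 < m ∧ (Φ ^ m) x = x)
    (hcard : ∀ m, 0 < m → (1 - M ^ m).det ≠ 0 ∧
      Nat.card (s27gw_Fix (Φ ^ m)) = ((1 - M ^ m).det).natAbs)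
    (hnorm : ∀ m t, 0 < m → 0 < t → ∀ x : G, (Φ ^ m) x = x →
      ∃ y : G, (Φ ^ (m * t)) y = y ∧ ∑ i ∈ range t, (Φ ^ (m * i)) y = x) (k : ℕ) :
    Nat.card {x : G // ℓ ^ k • x = 0} = ℓ ^ (d * k) := by
  classical
  obtain ⟨e, he, hgrow⟩ := s27gw_mat_growth ℓ M hM (fun n hn => (hcard n hn).1)
  let S : ℕ → Set G := fun m => {x : G | x ∈ s27gw_D ℓ (Φ ^ m) ∧ ℓ ^ k • x = 0}
  have hS : ∀ m, e ∣ m → 0 < m → (S m).ncard = ℓ ^ (d * k) := by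
    intro m hdvd hm
    obtain ⟨hdiv, hT⟩ := s27gw_valid ℓ Φ M hcard hnorm m hm (hgrow m hdvd hm)
    rw [← s27gw_card_torsion ℓ d hdiv hT k, ← Nat.card_coe_set_eq]
    exact Nat.card_congr
      { toFun := fun y => ⟨⟨y.1, y.2.1⟩, Subtype.ext y.2.2⟩
        invFun := fun x => ⟨((x : s27gw_D ℓ (Φ ^ m)) : G), (x : s27gw_D ℓ (Φ ^ m)).2,
          congrArg (fun a : s27gw_D ℓ (Φ ^ m) => (a : G)) x.2⟩
        left_inv := fun y => rfl
        right_inv := fun x => rfl }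
  have hmono : ∀ m', 0 < m' → S e ⊆ S (e * m') := by
    rintro m' hm' x ⟨⟨hx1, ⟨s, hs⟩⟩, hx2⟩
    refine ⟨⟨hx1, ⟨s, ?_⟩⟩, hx2⟩
    have : (Φ ^ (e * m')) ^ ℓ ^ s = ((Φ ^ e) ^ ℓ ^ s) ^ m' := by
      rw [← pow_mul, ← pow_mul, ← pow_mul]
      congr 1
      ring
    rw [this]
    exact s27gw_pow_fix hs m'
  have hpow0 : (S e).ncard ≠ 0 := by
    rw [hS e dvd_rfl he]
    exact pow_ne_zero _ hℓ.out.ne_zero
  have hiff : ∀ x : G, ℓ ^ k • x = 0 ↔ x ∈ S e := by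
    intro x
    refine ⟨fun hx => ?_, fun hx => hx.2⟩
    obtain ⟨m', hm', hfix⟩ := hper x
    have hpos : 0 < e * m' := Nat.mul_pos he hm'
    have hxm : x ∈ S (e * m') := by
      refine ⟨⟨⟨k, hx⟩, ⟨0, ?_⟩⟩, hx⟩
      rw [pow_zero, pow_one, mul_comm, pow_mul]
      exact s27gw_pow_fix hfix e
    have hfin : (S (e * m')).Finite := by
      apply Set.finite_of_ncard_ne_zero
      rw [hS _ (dvd_mul_right e m') hpos]
      exact pow_ne_zero _ hℓ.out.ne_zero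
    have heq : S e = S (e * m') :=
      Set.eq_of_subset_of_ncard_le (hmono m' hm')
        (by rw [hS e dvd_rfl he, hS _ (dvd_mul_right e m') hpos]) hfin
    rw [heq]
    exact hxm
  rw [Nat.card_congr (Equiv.subtypeEquivRight hiff)]
  exact (Nat.card_coe_set_eq (S e)).trans (hS e dvd_rfl he)

/-- **(G) + (DIV from norms)**: the form with iterates of an additive endomorphism. -/
theorem s27gw_main (φ : G →+ G) (hM : ¬ (ℓ : ℤ) ∣ M.det)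
    (hper : ∀ x : G, ∃ m, 0 < m ∧ φ^[m] x = x)
    (hcard : ∀ m, 0 < m → (1 - M ^ m).det ≠ 0 ∧
      Nat.card {x : G // φ^[m] x = x} = ((1 - M ^ m).det).natAbs)
    (hnorm : ∀ m t, 0 < m → 0 < t → ∀ x : G, φ^[m] x = x →
      ∃ y : G, φ^[m * t] y = y ∧ ∑ i ∈ range t, φ^[m * i] y = x) (k : ℕ) :
    Nat.card {x : G // ℓ ^ k • x = 0} = ℓ ^ (d * k) := by
  have hpow : ∀ (n : ℕ) (x : G), (φ.toIntLinearMap ^ n) x = φ^[n] x := fun n x => by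
    rw [Module.End.pow_apply]
    rfl
  apply s27gw_main_end ℓ φ.toIntLinearMap M hM
  · intro x
    obtain ⟨m, hm, h⟩ := hper x
    exact ⟨m, hm, by rw [hpow]; exact h⟩
  · intro m hm
    refine ⟨(hcard m hm).1, ?_⟩
    rw [← (hcard m hm).2]
    exact Nat.card_congr (Equiv.subtypeEquivRight (fun x => by rw [s27gw_mem_Fix, hpow]))
  · intro m t hm ht x hx
    rw [hpow] at hx
    obtain ⟨y, hy1, hy2⟩ := hnorm m t hm ht x hx
    refine ⟨y, by rw [hpow]; exact hy1, ?_⟩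
    rw [← hy2]
    exact Finset.sum_congr rfl (fun i _ => hpow _ _)

end final

end Fermat.Agent.S27
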